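import Fermat.Agent.S56.E.Defs
import Fermat.Agent.S55.D.Ar.Plc

/-!
# S56 / E / keys `S56/E-PPLC`, `S56/E-PINF`, `S56/E-PMU`, `S56/E-CCHI` : orbits = places       (~200 lines each)

`π` finite transitive smooth `GQ`-set, `F = G.fld π s0`, `(G.fld π s0).fixingSubgroup = G.stab π s0` (`G.fixingSubgroup_fld`).
* `sum_card_orb` (E-PPLC): for each `v` the map `Orb (π ∘ (Dq v).subtype) → {w | ∃ g, plc F v g = w}`, `[π g s0] ↦ plc F v g` is well defined and bijective (`D.plc_mul`, `D.plc_inj`; `π g s0 = π g' s0 ↔ g⁻¹ g' ∈ stab`);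
  the sets for different `v` are disjoint (`D.plc_inj`), their union over `v ∈ S` is `SF F S` (`D.mem_SF`).
* `card_orb_cc` (E-PINF): `Sg ≃ (F →ₐ[ℚ] Qb) ≃ (F →+* ℂ)`, `π g s0 ↦ complexEmbedding ∘ g ∘ incl` (bijective: `G.exists_extend`, every `F →+* ℂ` has algebraic image, so factors through `complexEmbedding` (`IsAlgClosed.lift`/range of `complexEmbedding` = algebraic numbers;
  or count: `#Sg = [F:ℚ] = #(F →+* ℂ)` + injectivity)); `cc` corresponds to `ComplexEmbedding.conjugate` (`complexEmbedding_complexConjugation`); `InfinitePlace F = (F →+* ℂ)/conj` (`InfinitePlace.mk`, `InfinitePlace.mk_eq_iff`, `mk_surjective`).  `Units.rank F = card (InfinitePlace F) - 1`.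
* `card_rootsOfUnity_fld` (E-PMU): `#μ_p(F) = p` if `cycloChar p = 1` on the stabiliser of `s0` (`G.exists_zeta`, `IsPrimitiveRoot.card_rootsOfUnity`), `= 1` otherwise (a nontrivial `p`-th root of unity `ζ ∈ F` is primitive, fixed by the stabiliser, and `g ζ = ζ ^ (cycloChar p g)`
  (definition of `cycloChar` in `Fermat/Prelude`, see S55/E/Chi.lean, `S55.G.zetaP_spec`, `G.exists_zeta`) ⇒ `cycloChar p g = 1`).
* `cycloChar_cc` (E-CCHI): `cc ζ = ζ⁻¹` for a root of unity (`complexEmbedding` is injective, `conj z = z⁻¹` on the unit circle) ⇒ `cycloChar p cc = -1`.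
-/

set_option autoImplicit false

noncomputable section

namespace Fermat.Agent.S56.E

open Fermat.Agent.S55 Fermat.Agent.S55.D ExtCitation Fermat.Agent.S14 NumberField

variable {Sg : Type} [Fintype Sg] {π : GQ →* Equiv.Perm Sg}

/-- the place attached to a point -/
def plcPt (htr : IsTrans π) (s0 : Sg) [NumberField (G.fld π s0)] (v : Nat.Primes) (s : Sg) :
    Pl (G.fld π s0) := plc (G.fld π s0) v (htr.2 s0 s).choose

omit [Fintype Sg] in
theorem plcPt_apply (htr : IsTrans π) (s0 : Sg) (hπ : SmoothSet π lvlQ) [NumberField (G.fld π s0)]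
    (v : Nat.Primes) (g : GQ) : plcPt htr s0 v (π g s0) = plc (G.fld π s0) v g := by
  have h1 := (htr.2 s0 (π g s0)).choose_spec
  set g' := (htr.2 s0 (π g s0)).choose with hg'
  have h2 : g⁻¹ * g' ∈ (G.fld π s0).fixingSubgroup := by
    rw [G.fixingSubgroup_fld hπ, G.mem_stab, map_mul, Equiv.Perm.mul_apply, h1, map_inv]
    simp
  have h3 := plc_mul (F := G.fld π s0) (v := v) (Subgroup.one_mem _) h2 g
  rw [one_mul, mul_inv_cancel_left] at h3
  exact h3

omit [Fintype Sg] in
theorem plcPt_eq_iff (htr : IsTrans π) (s0 : Sg) (hπ : SmoothSet π lvlQ) [NumberField (G.fld π s0)]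
    {v v' : Nat.Primes} {s s' : Sg} :
    plcPt htr s0 v s = plcPt htr s0 v' s' ↔ v = v' ∧ ∃ d ∈ Dq v, π d s = s' := by
  obtain ⟨g, rfl⟩ := htr.2 s0 s
  obtain ⟨g', rfl⟩ := htr.2 s0 s'
  rw [plcPt_apply htr s0 hπ, plcPt_apply htr s0 hπ]
  constructor
  · intro h
    obtain ⟨hv, d, hd, k, hk, rfl⟩ := plc_inj h
    refine ⟨hv, d, hd, ?_⟩
    rw [G.fixingSubgroup_fld hπ, G.mem_stab] at hk
    rw [map_mul, map_mul, Equiv.Perm.mul_apply, Equiv.Perm.mul_apply, hk]
  · rintro ⟨rfl, d, hd, h⟩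
    have h2 : (d * g)⁻¹ * g' ∈ (G.fld π s0).fixingSubgroup := by
      rw [G.fixingSubgroup_fld hπ, G.mem_stab, map_mul, Equiv.Perm.mul_apply, ← h, map_inv, map_mul,
        ← Equiv.Perm.mul_apply]
      simp
    have h3 := plc_mul (F := G.fld π s0) (v := v) hd h2 g
    rw [mul_inv_cancel_left] at h3
    exact h3.symm

/-- the place attached to an orbit -/
def plcOrb (htr : IsTrans π) (s0 : Sg) (hπ : SmoothSet π lvlQ) [NumberField (G.fld π s0)]
    (v : Nat.Primes) : Orb (π.comp (Dq v).subtype) → Pl (G.fld π s0) :=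
  Quotient.lift (plcPt htr s0 v) (by
    rintro s s' ⟨d, hd⟩
    exact (plcPt_eq_iff htr s0 hπ).2 ⟨rfl, d.1, d.2, hd⟩)

omit [Fintype Sg] in
theorem plcOrb_orbOf (htr : IsTrans π) (s0 : Sg) (hπ : SmoothSet π lvlQ) [NumberField (G.fld π s0)]
    (v : Nat.Primes) (s : Sg) :
    plcOrb htr s0 hπ v (orbOf (π.comp (Dq v).subtype) s) = plcPt htr s0 v s := rfl

omit [Fintype Sg] in
theorem plcOrb_injective (htr : IsTrans π) (s0 : Sg) (hπ : SmoothSet π lvlQ)
    [NumberField (G.fld π s0)] (v : Nat.Primes) : Function.Injective (plcOrb htr s0 hπ v) := by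
  intro o o' h
  obtain ⟨s, rfl⟩ := orbOf_surjective _ o
  obtain ⟨s', rfl⟩ := orbOf_surjective _ o'
  rw [plcOrb_orbOf, plcOrb_orbOf, plcPt_eq_iff htr s0 hπ] at h
  obtain ⟨-, d, hd, h⟩ := h
  exact (orbOf_eq_iff _).2 ⟨⟨d, hd⟩, h⟩

theorem sum_card_orb (htr : IsTrans π) (s0 : Sg) (hπ : SmoothSet π lvlQ) [NumberField (G.fld π s0)]
    (S : Finset Nat.Primes) :
    ∑ v ∈ S, Nat.card (Orb (π.comp (Dq v).subtype)) = (SF (G.fld π s0) S).card := by
  classical
  have h1 : SF (G.fld π s0) S = S.biUnion (fun v => Finset.univ.image (plcOrb htr s0 hπ v)) := by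
    ext w
    rw [mem_SF, Finset.mem_biUnion]
    constructor
    · rintro ⟨v, hv, g, rfl⟩
      refine ⟨v, hv, Finset.mem_image.2 ⟨orbOf _ (π g s0), Finset.mem_univ _, ?_⟩⟩
      rw [plcOrb_orbOf, plcPt_apply htr s0 hπ]
    · rintro ⟨v, hv, hw⟩
      obtain ⟨o, -, rfl⟩ := Finset.mem_image.1 hw
      obtain ⟨s, rfl⟩ := orbOf_surjective _ o
      exact ⟨v, hv, _, rfl⟩
  rw [h1, Finset.card_biUnion]
  · refine Finset.sum_congr rfl fun v _ => ?_
    rw [Finset.card_image_of_injective _ (plcOrb_injective htr s0 hπ v), Finset.card_univ,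
      Nat.card_eq_fintype_card]
  · intro v _ v' _ hne
    show Disjoint _ _
    rw [Finset.disjoint_left]
    intro w hw hw'
    obtain ⟨o, -, rfl⟩ := Finset.mem_image.1 hw
    obtain ⟨o', -, h⟩ := Finset.mem_image.1 hw'
    obtain ⟨s, rfl⟩ := orbOf_surjective _ o
    obtain ⟨s', rfl⟩ := orbOf_surjective _ o'
    rw [plcOrb_orbOf, plcOrb_orbOf, plcPt_eq_iff htr s0 hπ] at h
    exact hne h.1.symm

/-- the complex embedding `x ↦ complexEmbedding (g x)` -/
def cEmb (F : IntermediateField ℚ Qb) (g : GQ) : F →+* ℂ :=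
  (complexEmbedding.comp (emb F g)).toRingHom

theorem cEmb_apply (F : IntermediateField ℚ Qb) (g : GQ) (x : F) :
    cEmb F g x = complexEmbedding (g (x : Qb)) := rfl

theorem cEmb_eq_iff (F : IntermediateField ℚ Qb) {g g' : GQ} :
    cEmb F g = cEmb F g' ↔ g⁻¹ * g' ∈ F.fixingSubgroup := by
  rw [IntermediateField.mem_fixingSubgroup_iff]
  constructor
  · intro h x hx
    have h1 := DFunLike.congr_fun h (⟨x, hx⟩ : F)
    rw [cEmb_apply, cEmb_apply] at h1
    have h2 : g x = g' x := complexEmbedding.injective h1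
    rw [AlgEquiv.mul_apply, ← h2, B.inv_apply_apply]
  · intro h
    ext x
    rw [cEmb_apply, cEmb_apply]
    have h1 := h x x.2
    rw [AlgEquiv.mul_apply] at h1
    have h2 := congrArg g h1
    rw [show g (g⁻¹ (g' (x : Qb))) = g' x from g.apply_symm_apply _] at h2
    rw [h2]

theorem cEmb_cc_mul (F : IntermediateField ℚ Qb) (g : GQ) :
    cEmb F (cc * g) = ComplexEmbedding.conjugate (cEmb F g) := by
  ext x
  rw [cEmb_apply, AlgEquiv.mul_apply, complexEmbedding_complexConjugation]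
  rfl

theorem cEmb_surjective (F : IntermediateField ℚ Qb) [NumberField F] (φ : F →+* ℂ) :
    ∃ g, cEmb F g = φ := by
  have hinj : Function.Injective
      (fun j : F →+* Qb => (complexEmbedding.toRingHom.comp j : F →+* ℂ)) := by
    intro j j' h
    ext x
    exact complexEmbedding.injective (DFunLike.congr_fun h x)
  have hbij := (Fintype.bijective_iff_injective_and_card _).2
    ⟨hinj, (NumberField.Embeddings.card F Qb).trans (NumberField.Embeddings.card F ℂ).symm⟩
  obtain ⟨j, hj⟩ := hbij.2 φ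
  obtain ⟨g, hg⟩ := G.exists_extend F (RingHom.equivRatAlgHom F Qb j)
  refine ⟨g, ?_⟩
  rw [← hj]
  ext x
  rw [cEmb_apply, hg x]
  rfl

theorem mem_zpowers_cc {d : GQ} (hd : d ∈ Subgroup.zpowers cc) : d = 1 ∨ d = cc := by
  obtain ⟨k, rfl⟩ := Subgroup.mem_zpowers_iff.1 hd
  obtain ⟨m, rfl | rfl⟩ := Int.even_or_odd' k
  · left
    rw [zpow_mul, zpow_ofNat, complexConjugation_sq, one_zpow]
  · right
    rw [zpow_add, zpow_mul, zpow_ofNat, complexConjugation_sq, one_zpow, one_mul, zpow_one]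

/-- the infinite place attached to a point -/
def infPt (htr : IsTrans π) (s0 : Sg) (s : Sg) : InfinitePlace (G.fld π s0) :=
  InfinitePlace.mk (cEmb (G.fld π s0) (htr.2 s0 s).choose)

omit [Fintype Sg] in
theorem infPt_apply (htr : IsTrans π) (s0 : Sg) (hπ : SmoothSet π lvlQ) (g : GQ) :
    infPt htr s0 (π g s0) = InfinitePlace.mk (cEmb (G.fld π s0) g) := by
  have h1 := (htr.2 s0 (π g s0)).choose_spec
  rw [infPt]
  generalize (htr.2 s0 (π g s0)).choose = g' at h1 ⊢
  congr 1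
  rw [cEmb_eq_iff, G.fixingSubgroup_fld hπ, G.mem_stab, map_mul, Equiv.Perm.mul_apply, ← h1, map_inv]
  simp

omit [Fintype Sg] in
theorem infPt_eq_iff (htr : IsTrans π) (s0 : Sg) (hπ : SmoothSet π lvlQ) {s s' : Sg} :
    infPt htr s0 s = infPt htr s0 s' ↔ ∃ d ∈ Subgroup.zpowers cc, π d s = s' := by
  obtain ⟨g, rfl⟩ := htr.2 s0 s
  obtain ⟨g', rfl⟩ := htr.2 s0 s'
  rw [infPt_apply htr s0 hπ, infPt_apply htr s0 hπ, InfinitePlace.mk_eq_iff, ← cEmb_cc_mul,
    cEmb_eq_iff, cEmb_eq_iff, G.fixingSubgroup_fld hπ, G.mem_stab, G.mem_stab]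
  have e : ∀ a b : GQ, π (a⁻¹ * b) s0 = s0 ↔ π a s0 = π b s0 := by
    intro a b
    rw [map_mul, Equiv.Perm.mul_apply, map_inv, Equiv.Perm.inv_eq_iff_eq, eq_comm]
  rw [e, e]
  constructor
  · rintro (h | h)
    · exact ⟨1, Subgroup.one_mem _, by rw [map_one, Equiv.Perm.one_apply, h]⟩
    · exact ⟨cc, Subgroup.mem_zpowers _, by rw [← h, map_mul, Equiv.Perm.mul_apply]⟩
  · rintro ⟨d, hd, h⟩
    rcases mem_zpowers_cc hd with rfl | rfl
    · left
      rw [← h, map_one, Equiv.Perm.one_apply]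
    · right
      rw [← h, map_mul, Equiv.Perm.mul_apply]

theorem card_orb_cc (htr : IsTrans π) (s0 : Sg) (hπ : SmoothSet π lvlQ) [NumberField (G.fld π s0)] :
    Nat.card (Orb (π.comp (Subgroup.zpowers cc).subtype)) =
      NumberField.Units.rank (G.fld π s0) + 1 := by
  have hpos : 0 < Fintype.card (InfinitePlace (G.fld π s0)) := Fintype.card_pos
  rw [NumberField.Units.rank, Nat.sub_add_cancel hpos, ← Nat.card_eq_fintype_card]
  let f : Orb (π.comp (Subgroup.zpowers cc).subtype) → InfinitePlace (G.fld π s0) :=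
    Quotient.lift (infPt htr s0) (by
      rintro s s' ⟨d, hd⟩
      exact (infPt_eq_iff htr s0 hπ).2 ⟨d.1, d.2, hd⟩)
  have hf : ∀ s, f (orbOf _ s) = infPt htr s0 s := fun _ => rfl
  refine Nat.card_congr (Equiv.ofBijective f ⟨?_, ?_⟩)
  · intro o o' h
    obtain ⟨s, rfl⟩ := orbOf_surjective _ o
    obtain ⟨s', rfl⟩ := orbOf_surjective _ o'
    rw [hf, hf, infPt_eq_iff htr s0 hπ] at h
    obtain ⟨d, hd, h⟩ := h
    exact (orbOf_eq_iff _).2 ⟨⟨d, hd⟩, h⟩
  · intro w
    obtain ⟨g, hg⟩ := cEmb_surjective (G.fld π s0) w.embedding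
    refine ⟨orbOf _ (π g s0), ?_⟩
    rw [hf, infPt_apply htr s0 hπ, hg, InfinitePlace.mk_embedding]

open Classical in
theorem card_rootsOfUnity_fld (p : ℕ) [Fact p.Prime] (s0 : Sg) (hπ : SmoothSet π lvlQ) :
    Nat.card (rootsOfUnity p (G.fld π s0)) =
      if ∀ g, π g s0 = s0 → cycloChar p g = 1 then p else 1 := by
  have hp : p.Prime := Fact.out
  have : NeZero p := ⟨hp.ne_zero⟩
  split_ifs with hst
  · have hz : IsPrimitiveRoot ((T.zetaP p : Qbˣ) : Qb) p := (T.zetaP_spec p).map_of_injective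
      (f := Units.coeHom Qb) Units.val_injective
    have hmem : ((T.zetaP p : Qbˣ) : Qb) ∈ G.fld π s0 := by
      rw [G.mem_fld]
      intro g hg
      have h1 := E.cycloChar_spec p g hz.pow_eq_one
      rw [hst g hg] at h1
      simpa [ZMod.val_one] using h1
    have hF : IsPrimitiveRoot (⟨_, hmem⟩ : G.fld π s0) p :=
      IsPrimitiveRoot.of_map_of_injective (f := (G.fld π s0).val) hz (G.fld π s0).val.injective
    exact hF.card_rootsOfUnity
  · push Not at hst
    obtain ⟨g, hg, hχ⟩ := hst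
    have hsub : Subsingleton (rootsOfUnity p (G.fld π s0)) := by
      have key : ∀ x : rootsOfUnity p (G.fld π s0), x = 1 := by
        intro x
        by_contra hx
        have hxp : (x : (G.fld π s0)ˣ) ^ p = 1 := (mem_rootsOfUnity _ _).1 x.2
        set y : Qb := (((x : (G.fld π s0)ˣ) : G.fld π s0) : Qb) with hy
        have hyp : y ^ p = 1 := by
          have := congrArg (fun u : (G.fld π s0)ˣ => ((u : G.fld π s0) : Qb)) hxp
          simpa using this
        have hy1 : y ≠ 1 := by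
          intro h
          apply hx
          apply Subtype.ext
          apply Units.ext
          apply Subtype.ext
          exact h
        have hprim : IsPrimitiveRoot y p := by
          rw [← orderOf_eq_prime hyp hy1]
          exact IsPrimitiveRoot.orderOf y
        have h1 := E.cycloChar_spec p g hyp
        have h2 : g y = y := (G.mem_fld π).1 ((x : (G.fld π s0)ˣ) : G.fld π s0).2 g hg
        rw [h2] at h1
        have h3 := hprim.pow_inj hp.one_lt (ZMod.val_lt _) ((pow_one y).trans h1)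
        apply hχ
        apply Units.ext
        rw [Units.val_one, ← ZMod.natCast_zmod_val ((cycloChar p g : (ZMod p)ˣ) : ZMod p), ← h3]
        simp
      exact ⟨fun a b => (key a).trans (key b).symm⟩
    exact Nat.card_unique

theorem plcAux_cc_root {n : ℕ} (hn : n ≠ 0) {t : Qb} (ht : t ^ n = 1) : cc t = t⁻¹ := by
  apply complexEmbedding.injective
  show complexEmbedding (cc t) = complexEmbedding t⁻¹
  rw [complexEmbedding_complexConjugation, map_inv₀]
  have h1 : (complexEmbedding t) ^ n = 1 := by rw [← map_pow, ht, map_one]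
  have h2 : ‖complexEmbedding t‖ = 1 := Complex.norm_eq_one_of_pow_eq_one h1 hn
  exact (Complex.inv_eq_conj h2).symm

theorem cycloChar_cc (p : ℕ) [Fact p.Prime] : cycloChar p cc = -1 := by
  have hp : p.Prime := Fact.out
  have hz : IsPrimitiveRoot ((T.zetaP p : Qbˣ) : Qb) p := (T.zetaP_spec p).map_of_injective
    (f := Units.coeHom Qb) Units.val_injective
  have h1 := E.cycloChar_spec p cc hz.pow_eq_one
  rw [plcAux_cc_root hp.ne_zero hz.pow_eq_one] at h1
  have h2 : ((T.zetaP p : Qbˣ) : Qb) ^ (p - 1) = ((T.zetaP p : Qbˣ) : Qb)⁻¹ := by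
    apply eq_inv_of_mul_eq_one_left
    rw [← pow_succ, Nat.sub_add_cancel hp.one_le, hz.pow_eq_one]
  rw [← h2] at h1
  have h3 := hz.pow_inj (Nat.sub_lt hp.pos one_pos) (ZMod.val_lt _) h1
  apply Units.ext
  rw [Units.val_neg, Units.val_one, ← ZMod.natCast_zmod_val ((cycloChar p cc : (ZMod p)ˣ) : ZMod p), ← h3,
    Nat.cast_sub hp.one_le]
  simp

end Fermat.Agent.S56.E
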