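import Fermat.Agent.S56.E.Defs
import Fermat.Agent.S55.D.Ar.Count
import Fermat.Agent.S33.Val.Cyc

/-!
# S56 / E / keys `S56/E-UNR`, `S56/E-PH1` : `H¹(G_S, Map(π, μ_p)) ≅ VS / Fˣᵖ`       (S55/D/Ar; NO `ζ_p ∈ F` here!)

`π` a finite transitive `S`-smooth `GQ`-set, `F = G.fld π s0`, `S_F = SF F S`.
## `ord_of_unram` (key E-UNR, ~200 lines): converse of `D.loc1_kumG_mem_H1ur`.
`v ∉ S` (so `v ≠ p`), `x = kumG a`, `loc1 v x = kumL v (resL v a) ∈ H1ur` (`loc1_kumG`).  By the construction of `kumL` (`exists_delta0_eq` for `(kumData_D p v).ses.fn _`, exactly as in the proof of `D.kumL_mem_H1ur`, S55/D/Ar/Unr.lean) the class is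
represented by `z(σ) = "σ β / β"` with `β : Sg → Qbˣ`, `β^p = resL a`.  `z` is cohomologous to a cocycle `c` vanishing on `I_v`: `z - c = d0 t`, `t : Sg → ZMod p`; for `i ∈ I_v`: `i` acts trivially on `Sg` (`S`-smooth, `D.Iq_le_of_mem_lvlS`) and on `μ_p` (`D.rho_Iq` for `rhoT`), so `d0 t i = 0`
and `z(i) = 0`, i.e. `i (β s) = β s` for all `i ∈ I_v`, `s`.  An element of `Qb` fixed by `I_v` has integral valuation: `(B.wq v).w (β s) ∈ ℤ` (search: `w_int_of_fixed` in S33/Val, `B.w_int..`/`S55/B/Unram.lean`).  So `w_v(vl a s) = p w_v(β s) ∈ pℤ`.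
`D.w_vl_eq htr s0 v g` : `w_v(vl a (π g s0)) = e * ord (plc F v g) (evF a)` with `e > 0`; here `e = 1` because `F` is unramified at `v` (`v ∉ S`): take a uniformiser: by `exists_ord_eq` there is `t ∈ Fˣ` with `ord (plc F v g) t = 1`; `g t` is fixed by `I_v` (since `g⁻¹ I_v g` fixes `F`: all inertia groups over `v ∉ S` lie in the `S`-level, `D.inertia_le_of_mem_lvlS`), so `e = w_v(g t) ∈ ℤ_{>0}`;
and `w_v(v) = 1 = e * ord(v)` forces `e = 1` (`B.wq_q`).  [If `e = 1` is painful: `e ∈ ℤ`, `e ∣ 1`.]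
## `card_H1S_Fn` (key E-PH1, ~200 lines)
`φ : Fˣ → H¹(lvlQ, M₀)`, `φ x = kumG (ofF x)` is onto with kernel `pows F p` (`kumG_surjective`, `kumG_eq_zero_iff`, `evE`); `φ x ∈ range infl1` iff `x ∈ VS p S_F` (`D.mem_range_infl1_iff`, `D.loc1_kumG_mem_H1ur`, `ord_of_unram`, `plc_mem_SF_iff`, `exists_plc`); `infl1` injective (`D.infl1_injective`).
So `H¹_S(M₀) ≃ VS / (pows ⊓ VS)`; `Subgroup.relIndex` is the cardinality of that quotient.  (Copy the proof of `D.exists_X`, S55/D/Ar/Count.lean.)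
-/

set_option autoImplicit false

noncomputable section

namespace Fermat.Agent.S56.E

open Fermat.Agent.S55 Fermat.Agent.S55.D Fermat.Agent.S55.T ExtCitation Fermat.Agent.S14 NumberField

variable {p : ℕ} [Fact p.Prime] {S : Finset Nat.Primes}
variable {Sg : Type} [Fintype Sg] {π : GQ →* Equiv.Perm Sg} (htr : IsTrans π) (s0 : Sg)
  (hπ : SmoothSet π lvlQ)

theorem ord_of_unram [NumberField (G.fld π s0)] (hpS : pPrime p ∈ S) (hπS : SmoothSet π (lvlS S))
    {v : Nat.Primes} (hv : v ∉ S) (a : EG π)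
    (h : loc1 (Fn π (rhoT p)) v (kumG p hπ a) ∈ H1ur v (rv Dq (Fn π (rhoT p)) v)) (g : GQ) :
    (p : ℤ) ∣ ord (plc (G.fld π s0) v g) (evF htr s0 a) := by
  have hp : p.Prime := Fact.out
  have hπi : ∀ i ∈ Iq v, π i = 1 := fun i hi => by
    obtain ⟨U, hU, hu⟩ := hπS
    exact hu _ (Iq_le_of_mem_lvlS hU hv hi)
  -- values of invariant functions are fixed by inertia, so have integral valuation
  have hint : ∀ (a' : EG π) (s : Sg), ∃ k : ℤ, (B.wq v).w (vl a' s) = k := fun a' s =>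
    S33.w_int_of_fixed v (fun i hi => by
      have h1 := vl_applyG a' i s
      rw [hπi i hi] at h1
      exact h1.symm) (vl_ne_zero a' s)
  obtain ⟨e, he, hw⟩ := w_vl_eq htr s0 v g
  -- `e = 1`
  have he1 : e = 1 := by
    obtain ⟨t, ht⟩ := exists_ord_eq ({plc (G.fld π s0) v g} : Finset (Pl (G.fld π s0))) (fun _ => 1)
    obtain ⟨k, hk⟩ := hint (ofF htr s0 t) (π g s0)
    rw [hw, evF_ofF, ht _ (Finset.mem_singleton_self _), Int.cast_one, one_mul] at hk
    have hv0 : ((v : ℕ) : G.fld π s0) ≠ 0 := by exact_mod_cast v.2.ne_zero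
    have h2 := hw (ofF htr s0 (Units.mk0 _ hv0))
    rw [vl_eq htr s0, evF_ofF, Units.val_mk0] at h2
    have h3 : g (((v : ℕ) : G.fld π s0) : Qb) = ((v : ℕ) : Qb) := by
      rw [show (((v : ℕ) : G.fld π s0) : Qb) = ((v : ℕ) : Qb) from
        map_natCast (algebraMap (G.fld π s0) Qb) (v : ℕ), map_natCast]
    rw [h3, B.wq_q, hk] at h2
    have h4 : (1 : ℤ) = ord (plc (G.fld π s0) v g) (Units.mk0 _ hv0) * k := by exact_mod_cast h2
    have hk0 : (0 : ℤ) < k := by
      have : (0 : ℝ) < k := hk ▸ he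
      exact_mod_cast this
    have h5 : k = 1 := by
      rcases Int.isUnit_iff.1 (IsUnit.of_mul_eq_one _ (by rw [mul_comm]; exact h4.symm)) with h | h
      · exact h
      · omega
    rw [hk, h5, Int.cast_one]
  -- the Kummer cocycle vanishes on inertia
  rw [loc1_kumG] at h
  obtain ⟨c, z, hc, hz, hk⟩ := exists_delta0_eq (𝓛 := lvlD v)
    ((kumData_D p v).ses.fn (π.comp (Dq v).subtype))
    (smooth_Fn (galAct_D v).smooth_gm (hπ.comap (Dq v).subtype)) (resL π v a)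
  obtain ⟨c', hc', hc'0⟩ := h
  have hρ : Smooth (lvlS S) (Fn π (rhoT p)) := smooth_Fn (smooth_lvlS_rhoT p hpS) hπS
  have hzi : ∀ i ∈ IqD v, z.1 i = 0 := by
    intro i hi
    let z' : ↥(Z1 (lvlD v) (rv Dq (Fn π (rhoT p)) v)) := z
    have h1 : H1.mk (lvlD v) (rv Dq (Fn π (rhoT p)) v) (z' - c') = 0 := by
      rw [map_sub, hc', sub_eq_zero]
      exact hk.symm
    obtain ⟨-, t, ht⟩ := (H1.mk_eq_zero_iff _ _ _).1 h1
    have h2 := congrFun ht i
    have h3 : d0 (rv Dq (Fn π (rhoT p)) v) t i = 0 := by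
      rw [d0_apply]
      have h4 : rv Dq (Fn π (rhoT p)) v i = 1 := rho_Iq hρ hv i hi
      rw [h4]
      exact sub_self t
    rw [h3] at h2
    have h5 : z.1 i - c'.1 i = 0 := h2
    rw [hc'0 i hi, sub_zero] at h5
    exact h5
  -- so the `p`-th root is fixed by inertia
  have hfix : ∀ i ∈ Iq v, i (((c (π g s0)).toMul : Qbˣ) : Qb) = (((c (π g s0)).toMul : Qbˣ) : Qb) := by
    intro i hi
    have hiD : i ∈ Dq v := B.Iq_le_Dq v hi
    have h1 := hz ⟨i, hiD⟩
    rw [hzi ⟨i, hiD⟩ hi, map_zero] at h1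
    have h2 := congrFun (sub_eq_zero.1 h1.symm) (π g s0)
    rw [Fn_apply] at h2
    have h3 : ((π.comp (Dq v).subtype) ⟨i, hiD⟩)⁻¹ (π g s0) = π g s0 := by
      change (π i)⁻¹ (π g s0) = π g s0
      rw [hπi i hi]; rfl
    rw [h3] at h2
    exact congrArg (fun y : Additive Qbˣ => ((y.toMul : Qbˣ) : Qb)) h2
  obtain ⟨n, hn⟩ := S33.w_int_of_fixed v hfix (Units.ne_zero _)
  have hcs : (((c (π g s0)).toMul : Qbˣ) : Qb) ^ p = vl a (π g s0) := by
    have h2 : p • c (π g s0) = (resL π v a).1 (π g s0) := congrFun hc (π g s0)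
    rw [← vl_resL v a]
    unfold vl
    rw [← h2, toMul_nsmul, Units.val_pow_eq_pow_val]
  have h6 := hw a
  rw [← hcs, S05.RVal.w_pow (Units.ne_zero _), hn, he1, mul_one] at h6
  exact ⟨n, by exact_mod_cast h6.symm⟩

include htr hπ in
theorem card_H1S_Fn [NumberField (G.fld π s0)] (hpS : pPrime p ∈ S) (hπS : SmoothSet π (lvlS S)) :
    Nat.card (H1 (lvlS S) (Fn π (rhoT p))) =
      (pows (G.fld π s0) p).relIndex (C.VS p (SF (G.fld π s0) S)) := by
  let Φ : (G.fld π s0)ˣ →* Multiplicative (H1 lvlQ (Fn π (rhoT p))) :=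
    { toFun := fun x => Multiplicative.ofAdd (kumG p hπ (ofF htr s0 x))
      map_one' := by
        have h1 : ofF htr s0 (1 : (G.fld π s0)ˣ) = 0 := by simp [ofF]
        rw [h1, map_zero]
        rfl
      map_mul' := fun x y => by
        rw [ofF_mul, map_add]
        rfl }
  have hΦ : ∀ x, Φ x = Multiplicative.ofAdd (kumG p hπ (ofF htr s0 x)) := fun _ => rfl
  have hker : Φ.ker = pows (G.fld π s0) p := by
    ext x
    rw [MonoidHom.mem_ker, hΦ]
    constructor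
    · intro h
      have h1 : kumG p hπ (ofF htr s0 x) = 0 := h
      obtain ⟨c, hc⟩ := (kumG_eq_zero_iff p hπ _).1 h1
      refine ⟨evF htr s0 c, ?_⟩
      change evF htr s0 c ^ p = x
      rw [← evF_nsmul, hc, evF_ofF]
    · rintro ⟨y, rfl⟩
      have h1 : kumG p hπ (ofF htr s0 (y ^ p)) = 0 := by
        rw [ofF_pow]
        exact kumG_nsmul p hπ _
      change Multiplicative.ofAdd (kumG p hπ (ofF htr s0 (y ^ p))) = 1
      rw [h1]
      rfl
  have hcard : (pows (G.fld π s0) p).relIndex (C.VS p (SF (G.fld π s0) S)) =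
      Nat.card ((C.VS p (SF (G.fld π s0) S)).map Φ) := by
    rw [← hker, Subgroup.relIndex_ker]
  have hρ : Smooth (lvlS S) (Fn π (rhoT p)) := smooth_Fn (smooth_lvlS_rhoT p hpS) hπS
  have hmem : ∀ x : H1 (lvlS S) (Fn π (rhoT p)),
      Multiplicative.ofAdd (infl1 S (Fn π (rhoT p)) x) ∈ (C.VS p (SF (G.fld π s0) S)).map Φ := by
    intro x
    obtain ⟨a, ha⟩ := kumG_surjective p hπ (infl1 S (Fn π (rhoT p)) x)
    refine ⟨evF htr s0 a, fun w hw => ?_, ?_⟩
    · obtain ⟨v, g, rfl⟩ := exists_plc w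
      have hv : v ∉ S := fun h => hw (plc_mem_SF_iff.2 h)
      refine ord_of_unram htr s0 hπ hpS hπS hv a ?_ g
      rw [ha]
      exact (mem_range_infl1_iff S _ hρ _).1 ⟨x, rfl⟩ v hv
    · rw [hΦ, ofF_evF, ha]
  let f : H1 (lvlS S) (Fn π (rhoT p)) → (C.VS p (SF (G.fld π s0) S)).map Φ :=
    fun x => ⟨Multiplicative.ofAdd (infl1 S (Fn π (rhoT p)) x), hmem x⟩
  have hf : Function.Bijective f := by
    constructor
    · intro x y hxy
      have h1 : infl1 S (Fn π (rhoT p)) x = infl1 S (Fn π (rhoT p)) y :=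
        Multiplicative.ofAdd.injective (congrArg Subtype.val hxy)
      exact infl1_injective S _ h1
    · rintro ⟨_, a, ha, rfl⟩
      obtain ⟨y, hy⟩ := (mem_range_infl1_iff S _ hρ (kumG p hπ (ofF htr s0 a))).2 fun v hv =>
        loc1_kumG_mem_H1ur htr s0 hπ hpS hπS hv _ fun g => by
          rw [evF_ofF]
          exact ha _ fun hmem => hv (plc_mem_SF_iff.1 hmem)
      exact ⟨y, Subtype.ext (by
        change Multiplicative.ofAdd (infl1 S (Fn π (rhoT p)) y) = Φ a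
        rw [hy, hΦ])⟩
  rw [hcard]
  exact Nat.card_congr (Equiv.ofBijective f hf)

end Fermat.Agent.S56.E
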