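import Fermat.Agent.S55.C.EC
import Fermat.Agent.S55.D.Ar.Plc

/-!
# S56 / E / key `S56/E-PVS` : `[VS : Fˣᵖ] = #μ_p(F) p^{#S + rank}` if `S` generates the class group       (number fields, S14 + S55/C; ~250 lines)

`F` ANY number field (no `ζ_p`).  `Gen S` (S14/Defs): every divisor is principal outside `S`.
* `VS p S = pows F p ⊔ SUnit F S` if `Gen S` (`C.exists_sunit`; this is step `c5` in the proof of `C.EC` with `S₁ = S`), so `(pows).relIndex VS = (pows).relIndex (SUnit F S)` (`Subgroup.relIndex_sup_left`).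
* `(pows).relIndex (SUnit F S) = #(SUnit / SUnit^p)` (proof of `C.relIndex_pows_SUnit`, no `ζ` needed).
* `#(SUnit/SUnit^p) = #(SUnit[p]) * p ^ finrank` (`card_quot_p p (Additive (SUnit F S))`, `sunit_finrank` : `finrank = S.card + Units.rank F`; see `C.card_SUnit_mod_pow`), `SUnit[p] ≃ rootsOfUnity p F` (`C.UPAux.card_ker` without its last step).
* `exists_gen_SF` : `exists_gen_disjoint ∅` gives a finite generating set `G₀` of places; each `w ∈ G₀` is `plc F v g` (`D.exists_plc`); `S₁ :=` the set of these `v`; `Gen.mono`, `D.mem_SF`.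
-/

set_option autoImplicit false

noncomputable section

namespace Fermat.Agent.S56.E

open Fermat.Agent.S55 Fermat.Agent.S14 NumberField IsDedekindDomain

theorem card_ker_zsmul_SUnit {F : Type*} [Field F] [NumberField F] (p : ℕ) [Fact p.Prime]
    (S : Finset (Pl F)) :
    Nat.card (zsmulAddGroupHom (p : ℤ) : Additive (SUnit F S) →+ Additive (SUnit F S)).ker =
      Nat.card (rootsOfUnity p F) := by
  have hp' : p.Prime := Fact.out
  have : NeZero p := ⟨hp'.ne_zero⟩
  refine Nat.card_congr (β := rootsOfUnity p F)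
    { toFun := fun x => ⟨((Additive.toMul x.1 : SUnit F S) : Fˣ), ?_⟩
      invFun := fun z => ⟨Additive.ofMul ⟨z.1, ?_⟩, ?_⟩
      left_inv := fun x => rfl
      right_inv := fun z => rfl }
  · have h := x.2
    rw [AddMonoidHom.mem_ker] at h
    rw [mem_rootsOfUnity]
    have h2 : (Additive.toMul x.1 : SUnit F S) ^ p = 1 := by
      have h3 : (p : ℤ) • x.1 = 0 := h
      have h4 := congrArg Additive.toMul h3
      rw [toMul_zsmul, zpow_natCast] at h4
      exact h4
    exact_mod_cast congrArg (Subtype.val) h2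
  · apply mem_SUnit_of_pow S z.1 hp'.ne_zero
    rw [(mem_rootsOfUnity _ _).mp z.2]
    exact one_mem _
  · rw [AddMonoidHom.mem_ker]
    apply Additive.toMul.injective
    apply Subtype.ext
    simpa using (mem_rootsOfUnity _ _).mp z.2

theorem card_SUnit_mod_pow' {F : Type*} [Field F] [NumberField F] (p : ℕ) [Fact p.Prime]
    (S : Finset (Pl F)) :
    Nat.card (SUnit F S ⧸ (powMonoidHom p : SUnit F S →* SUnit F S).range) =
      Nat.card (rootsOfUnity p F) * p ^ (S.card + NumberField.Units.rank F) := by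
  have h := card_quot_p p (Additive (SUnit F S))
  rw [card_ker_zsmul_SUnit, sunit_finrank, ← AddSubgroup.index_eq_card] at h
  rw [← Subgroup.index_eq_card]
  have e : Subgroup.toAddSubgroup (powMonoidHom p : SUnit F S →* SUnit F S).range =
      (zsmulAddGroupHom (p : ℤ) : Additive (SUnit F S) →+ Additive (SUnit F S)).range := by
    ext x
    constructor
    · rintro ⟨y, hy⟩
      refine ⟨Additive.ofMul y, ?_⟩
      apply Additive.toMul.injective
      simpa using hy
    · rintro ⟨y, hy⟩
      refine ⟨Additive.toMul y, ?_⟩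
      have := congrArg Additive.toMul hy
      simpa using this
  rw [← e] at h
  rw [show (powMonoidHom p : SUnit F S →* SUnit F S).range.index =
    (Subgroup.toAddSubgroup (powMonoidHom p : SUnit F S →* SUnit F S).range).index from rfl, h,
    mul_comm, add_comm]

theorem relIndex_pows_SUnit' {F : Type*} [Field F] [NumberField F] (p : ℕ) [Fact p.Prime]
    (S : Finset (Pl F)) :
    (pows F p).relIndex (SUnit F S) =
      Nat.card (rootsOfUnity p F) * p ^ (S.card + NumberField.Units.rank F) := by
  have hp' : p.Prime := Fact.out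
  rw [← card_SUnit_mod_pow' p S, ← Subgroup.index_eq_card, Subgroup.relIndex]
  congr 1
  ext x
  rw [Subgroup.mem_subgroupOf]
  constructor
  · rintro ⟨y, hy⟩
    have hy' : y ^ p = (x : Fˣ) := hy
    have hyS : y ∈ SUnit F S := mem_SUnit_of_pow S y hp'.ne_zero (by rw [hy']; exact x.2)
    exact ⟨⟨y, hyS⟩, Subtype.ext hy'⟩
  · rintro ⟨y, hy⟩
    exact ⟨y, congrArg Subtype.val hy⟩

theorem relIndex_pows_VS {F : Type*} [Field F] [NumberField F] (p : ℕ) [Fact p.Prime]
    (S : Finset (Pl F)) (hgen : Gen S) :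
    (pows F p).relIndex (C.VS p S) =
      Nat.card (rootsOfUnity p F) * p ^ (S.card + NumberField.Units.rank F) := by
  have hVS : C.VS p S = pows F p ⊔ SUnit F S := by
    apply le_antisymm
    · intro x hx
      obtain ⟨c, hc⟩ := C.ECaux.exists_sunit (p := p) hgen x hx
      have h1 : x = (c⁻¹) ^ p * (x * c ^ p) := by
        rw [inv_pow, mul_comm x, inv_mul_cancel_left]
      rw [h1]
      exact Subgroup.mul_mem_sup ⟨c⁻¹, rfl⟩ hc
    · rw [sup_le_iff]
      constructor
      · rintro _ ⟨y, rfl⟩ w _
        change (p : ℤ) ∣ ord w (y ^ p)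
        rw [ord_pow]
        exact Dvd.intro _ rfl
      · intro x hx w hw
        rw [((mem_SUnit_iff S x).1 hx) w hw]
        exact dvd_zero _
  rw [hVS, Subgroup.relIndex_sup_left, relIndex_pows_SUnit']

theorem exists_gen_SF (F : IntermediateField ℚ Qb) [NumberField F] :
    ∃ S₁ : Finset Nat.Primes, ∀ S : Finset Nat.Primes, S₁ ⊆ S → Gen (D.SF F S) := by
  classical
  obtain ⟨G₀, -, hG₀⟩ := exists_gen_disjoint (∅ : Finset (Pl F))
  choose v g hvg using fun w : Pl F => D.exists_plc w
  refine ⟨G₀.image v, fun S hS => hG₀.mono fun w hw => ?_⟩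
  exact D.mem_SF.2 ⟨v w, hS (Finset.mem_image_of_mem _ hw), g w, hvg w⟩

end Fermat.Agent.S56.E
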