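import Fermat.Agent.S56.E.Defs

/-!
# S56 / E / keys `S56/E-PDUAL`, `S56/E-PMINUS`, `S56/E-PH0` : invariants of `Map(π, T)` and of its dual       (formal; S55/A/DualMod, S55/A/Orbit; ~150 lines each)

General group `G`, `χ : G →* (ZMod p)ˣ`, `T = rhoChi χ`, `π : G →* Perm Sg`, `Sg` finite.  `Orb π` = set of orbits (S55/A/Orbit).
* `card_H0_dual_Fn` : for `r : H →* G`: `#H⁰(H, (Map(π,T))') = p ^ #Orb(π ∘ r)`.   `dualToFn`/`fnToDual` (S55/A/DualMod: `isHom_dualToFn`, `isHom_fnToDual`, `fnToDual_dualToFn`) identify `dualRho χ (Fn π T)` with `Fn π (rhoTriv G (ZMod p))`;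
  the `H`-invariants of `Fn π 𝟙` are the functions constant on the `H`-orbits `≃ (Orb (π.comp r) → ZMod p)`.
* `card_minus_Fn` : `c ∈ G` with `χ c = -1`: `(c f)(s) = - f(c⁻¹ s)`, so `minus = ` functions invariant under `c` `≃ (Orb (π restricted to zpowers c) → ZMod p)`.
* `card_H0_Fn` : `π` transitive, `s0`: evaluation at `s0` identifies `H⁰(G, Map(π,T))` with `{t : ZMod p | ∀ g, π g s0 = s0 → χ g • t = t}`: all of `ZMod p` if `χ = 1` on the stabiliser, `0` otherwise (`(χ g - 1) t = 0`, `χ g ≠ 1` ⇒ `t = 0`).
-/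

set_option autoImplicit false

noncomputable section

namespace Fermat.Agent.S56.E

open Fermat.Agent.S55

variable {p : ℕ} [Fact p.Prime] {G : Type} [Group G] (χ : G →* (ZMod p)ˣ) {Sg : Type} [Fintype Sg]
  (π : G →* Equiv.Perm Sg)

/-- functions constant on the orbits -/
theorem orbAux_card_inv {H : Type} [Group H] (π' : H →* Equiv.Perm Sg) :
    Nat.card {f : Sg → ZMod p // ∀ h s, f (π' h s) = f s} = p ^ Nat.card (Orb π') := by
  have : Finite (Orb π') := Quotient.finite _
  have e : {f : Sg → ZMod p // ∀ h s, f (π' h s) = f s} ≃ (Orb π' → ZMod p) :=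
    { toFun := fun f => Quotient.lift f.1 (by
        rintro a b ⟨g, rfl⟩
        exact (f.2 g a).symm)
      invFun := fun F => ⟨fun s => F (orbOf π' s), fun h s => by
        show F (orbOf π' (π' h s)) = F (orbOf π' s)
        rw [orbOf_smul]⟩
      left_inv := fun f => by
        ext s
        rfl
      right_inv := fun F => by
        funext o
        obtain ⟨s, rfl⟩ := orbOf_surjective π' o
        rfl }
  rw [Nat.card_congr e, Nat.card_fun, Nat.card_zmod]

theorem card_H0_dual_Fn {H : Type} [Group H] (r : H →* G) :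
    Nat.card (H0 ((dualRho χ (Fn π (rhoChi χ))).comp r)) = p ^ Nat.card (Orb (π.comp r)) := by
  classical
  rw [← orbAux_card_inv (p := p) (π.comp r)]
  have hinj : ∀ a : Sg → ZMod p, dualToFn Sg p (fnToDual Sg p a) = a := by
    intro a
    funext s
    rw [dualToFn_apply, fnToDual_apply, Finset.sum_eq_single s]
    · simp
    · intro t _ hts
      rw [Pi.single_eq_of_ne hts, mul_zero]
    · intro h
      exact absurd (Finset.mem_univ s) h
  refine Nat.card_congr
    { toFun := fun φ => ⟨dualToFn Sg p φ.1, fun h s => ?_⟩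
      invFun := fun f => ⟨fnToDual Sg p f.1, fun h => ?_⟩
      left_inv := fun φ => Subtype.ext (fnToDual_dualToFn φ.1)
      right_inv := fun f => Subtype.ext (hinj f.1) }
  · have h1 := isHom_dualToFn χ π (r h) φ.1
    have h2 : dualRho χ (Fn π (rhoChi χ)) (r h) φ.1 = φ.1 := φ.2 h
    rw [h2] at h1
    have h3 := congrFun h1 (π (r h) s)
    rw [Fn_apply] at h3
    have h4 : (π (r h))⁻¹ (π (r h) s) = s := by simp
    rw [h4] at h3
    exact h3
  · show dualRho χ (Fn π (rhoChi χ)) (r h) (fnToDual Sg p f.1) = fnToDual Sg p f.1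
    rw [← isHom_fnToDual χ π (r h) f.1]
    congr 1
    funext s
    rw [Fn_apply]
    have h1 := f.2 h ((π (r h))⁻¹ s)
    have h2 : (π.comp r) h ((π (r h))⁻¹ s) = s := by
      show π (r h) ((π (r h))⁻¹ s) = s
      simp
    rw [h2] at h1
    exact h1.symm

theorem card_minus_Fn (c : G) (hc : χ c = -1) :
    Nat.card (minus (Fn π (rhoChi χ)) c) =
      p ^ Nat.card (Orb (π.comp (Subgroup.zpowers c).subtype)) := by
  rw [← orbAux_card_inv (p := p) (π.comp (Subgroup.zpowers c).subtype)]
  have key : ∀ f : Sg → ZMod p, f ∈ minus (Fn π (rhoChi χ)) c ↔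
      ∀ (h : Subgroup.zpowers c) s, f ((π.comp (Subgroup.zpowers c).subtype) h s) = f s := by
    intro f
    have h0 : f ∈ minus (Fn π (rhoChi χ)) c ↔ ∀ s, f (π c s) = f s := by
      constructor
      · intro hf s
        have h1 : Fn π (rhoChi χ) c f = -f := hf
        have h2 := congrFun h1 (π c s)
        rw [Fn_apply, rhoChi_apply, hc] at h2
        have h4 : (π c)⁻¹ (π c s) = s := by simp
        rw [h4] at h2
        simp only [Units.val_neg, Units.val_one, neg_mul, one_mul, Pi.neg_apply, neg_inj] at h2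
        exact h2.symm
      · intro hf
        show Fn π (rhoChi χ) c f = -f
        funext s
        rw [Fn_apply, rhoChi_apply, hc]
        have h1 := hf ((π c)⁻¹ s)
        have h4 : π c ((π c)⁻¹ s) = s := by simp
        rw [h4] at h1
        simp only [Units.val_neg, Units.val_one, neg_mul, one_mul, Pi.neg_apply, neg_inj]
        exact h1.symm
    rw [h0]
    constructor
    · rintro hf ⟨h, n, rfl⟩ s
      show f (π (c ^ n) s) = f s
      -- the set of `g` leaving `f` invariant is a subgroup
      let K : Subgroup G :=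
        { carrier := {g | ∀ s, f (π g s) = f s}
          one_mem' := fun s => by simp
          mul_mem' := fun {a b} ha hb s => by
            rw [map_mul, Equiv.Perm.mul_apply, ha, hb]
          inv_mem' := fun {a} ha s => by
            have := ha ((π a)⁻¹ s)
            rw [map_inv]
            have h4 : π a ((π a)⁻¹ s) = s := by simp
            rw [h4] at this
            exact this.symm }
      have hcK : c ∈ K := hf
      exact K.zpow_mem hcK n s
    · intro hf s
      exact hf ⟨c, Subgroup.mem_zpowers c⟩ s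
  exact Nat.card_congr (Equiv.subtypeEquivRight key)

open Classical in
theorem card_H0_Fn (htr : IsTrans π) (s0 : Sg) :
    Nat.card (H0 (Fn π (rhoChi χ))) = if ∀ g, π g s0 = s0 → χ g = 1 then p else 1 := by
  -- evaluation at `s0` is injective on `H0`
  have hval : ∀ f ∈ H0 (Fn π (rhoChi χ)), ∀ g, f (π g s0) = (χ g : ZMod p) * f s0 := by
    intro f hf g
    have h1 := congrFun (hf g) (π g s0)
    rw [Fn_apply, rhoChi_apply] at h1
    have h4 : (π g)⁻¹ (π g s0) = s0 := by simp
    rw [h4] at h1
    exact h1.symm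
  split_ifs with hst
  · -- `H0 ≃ ZMod p`
    choose γ hγ using fun s => htr.2 s0 s
    have hwd : ∀ g g', π g s0 = π g' s0 → χ g = χ g' := by
      intro g g' h
      have h1 : π (g'⁻¹ * g) s0 = s0 := by
        rw [map_mul, Equiv.Perm.mul_apply, h, map_inv]
        simp
      have h2 := hst _ h1
      rw [map_mul, map_inv, inv_mul_eq_one] at h2
      exact h2.symm
    have e : H0 (Fn π (rhoChi χ)) ≃ ZMod p :=
      { toFun := fun f => f.1 s0
        invFun := fun t => ⟨fun s => (χ (γ s) : ZMod p) * t, fun g => by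
          funext s
          rw [Fn_apply, rhoChi_apply, ← mul_assoc, ← Units.val_mul, ← map_mul]
          have : χ (g * γ ((π g)⁻¹ s)) = χ (γ s) := by
            apply hwd
            rw [map_mul, Equiv.Perm.mul_apply, hγ, hγ]
            simp
          rw [this]⟩
        left_inv := fun f => by
          ext s
          show (χ (γ s) : ZMod p) * f.1 s0 = f.1 s
          rw [← hval f.1 f.2, hγ]
        right_inv := fun t => by
          show (χ (γ s0) : ZMod p) * t = t
          rw [hst _ (hγ s0)]
          simp }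
    rw [Nat.card_congr e, Nat.card_zmod]
  · push Not at hst
    obtain ⟨g, hg, hχ⟩ := hst
    have hzero : ∀ f ∈ H0 (Fn π (rhoChi χ)), f = 0 := by
      intro f hf
      have h1 := hval f hf g
      rw [hg] at h1
      have h2 : ((χ g : ZMod p) - 1) * f s0 = 0 := by rw [sub_mul, one_mul, ← h1, sub_self]
      have h3 : ((χ g : ZMod p) - 1) ≠ 0 := by
        intro h
        apply hχ
        ext
        rw [Units.val_one]
        exact sub_eq_zero.1 h
      have h4 : f s0 = 0 := (mul_eq_zero.1 h2).resolve_left h3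
      funext s
      obtain ⟨γ, rfl⟩ := htr.2 s0 s
      rw [hval f hf γ, h4, mul_zero]
      rfl
    have : Subsingleton (H0 (Fn π (rhoChi χ))) :=
      ⟨fun a b => Subtype.ext ((hzero a.1 a.2).trans (hzero b.1 b.2).symm)⟩
    exact Nat.card_unique

end Fermat.Agent.S56.E
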