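import Fermat.Agent.S56.E.P.Unr
import Fermat.Agent.S56.E.P.VS
import Fermat.Agent.S56.E.P.Orb
import Fermat.Agent.S56.E.P.Plc
import Fermat.Agent.S56.E.Ar.H2S
import Fermat.Agent.S56.E.Ar.Mono

/-!
# S56 / E / key `S56/E-PASM` : **(P)** `lam (Map(π, μ_p)) = 0` for every finite transitive `S₀`-smooth `GQ`-set `π`      (assembly, ~250 lines)

`F = G.fld π s0` (`haveI := G.numberField_fld hπQ s0`), `M₀ = Fn π (rhoT p)` (`rhoT p = rhoChi (cycloChar p)` by definition), `r = Units.rank F`, `ε = 1` if `cycloChar p = 1` on the stabiliser of `s0`, else `0`.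
`S₁ := S₀ ∪ (exists_gen_SF F)`.  For `S ⊇ S₁` (`π` is `S`-smooth by `lvlS_mono`):
 * `#H⁰(M₀) = p^ε` (`card_H0_Fn`),  `#μ_p(F) = p^ε` (`card_rootsOfUnity_fld`),
 * `#H¹_S(M₀) = [VS : pows] = p^ε p^{#S_F + r}` (`card_H1S_Fn`, `relIndex_pows_VS`),
 * `#H2S(M₀) * #H⁰(M₀') = #Ш²_all(M₀) ∏_{v∈S} #H⁰(D_v, M₀')` (`card_H2S`), `Ш²_all(M₀) = 0` (`(datumQ p hp2).some.hasse π hπQ htr`, `ShaA2`), `#H⁰(M₀') = p^{#Orb π} = p` (`card_H0_dual_Fn` with `r = id`; one orbit by transitivity),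
   `#H⁰(D_v,M₀') = p^{#Orb(π|D_v)}` (`card_H0_dual_Fn` with `r = (Dq v).subtype`; `rv Dq ρ v = ρ.comp (Dq v).subtype` by definition), `∑_{v∈S} #Orb = #S_F` (`sum_card_orb`; `Finset.prod_pow_eq_pow_sum`).  So `#H2S(M₀) = p^{#S_F - 1}` (`#S_F ≥ 1` as `S ≠ ∅`).
 * `#minus = p^{r+1}` (`card_minus_Fn`, `cycloChar_cc`, `card_orb_cc`).
 `lamS = ε + (#S_F - 1) + (r + 1) - (ε + #S_F + r) = 0` (`padicValNat.prime_pow`/`padicValNat.pow`).   `lam_eq_zero_iff`.
-/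

set_option autoImplicit false

noncomputable section

namespace Fermat.Agent.S56.E

open Fermat.Agent.S55 Fermat.Agent.S55.D ExtCitation

variable {p : ℕ} [Fact p.Prime]

theorem lam_Fn_T (hp2 : p ≠ 2) {S₀ : Finset Nat.Primes} (hpS : pPrime p ∈ S₀) {Sg : Type}
    [Fintype Sg] (π : GQ →* Equiv.Perm Sg) (hπ : SmoothSet π (lvlS S₀)) (htr : IsTrans π) :
    lam p (Fn π (rhoChi (cycloChar p))) = 0 := by
  classical
  have hp : p.Prime := Fact.out
  obtain ⟨s0⟩ := htr.1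
  have hπQ : SmoothSet π lvlQ := smoothSet_lvlQ_of_lvlS hπ
  haveI := G.numberField_fld hπQ s0
  obtain ⟨S₁, hS₁⟩ := exists_gen_SF (G.fld π s0)
  rw [lam_eq_zero_iff]
  refine ⟨S₀ ∪ S₁, fun S hS => ?_⟩
  have hS0 : S₀ ⊆ S := Finset.subset_union_left.trans hS
  have hS1 : S₁ ⊆ S := Finset.subset_union_right.trans hS
  have hpS' : pPrime p ∈ S := hS0 hpS
  have hπS : SmoothSet π (lvlS S) := by
    obtain ⟨U, hU, hu⟩ := hπ
    exact ⟨U, lvlS_mono hS0 hU, hu⟩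
  obtain ⟨dat⟩ := datumQ p hp2
  obtain ⟨ε, hif⟩ : ∃ ε : ℕ, (if ∀ g, π g s0 = s0 → cycloChar p g = 1 then p else 1) = p ^ ε := by
    split_ifs
    · exact ⟨1, (pow_one p).symm⟩
    · exact ⟨0, (pow_zero p).symm⟩
  obtain ⟨n, hn⟩ : ∃ n, (SF (G.fld π s0) S).card = n := ⟨_, rfl⟩
  obtain ⟨r, hr⟩ : ∃ r, NumberField.Units.rank (G.fld π s0) = r := ⟨_, rfl⟩
  have h0 : Nat.card (H0 (Fn π (rhoChi (cycloChar p)))) = p ^ ε := by
    rw [card_H0_Fn (cycloChar p) π htr s0, hif]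
  have h1 : Nat.card (H1 (lvlS S) (Fn π (rhoChi (cycloChar p)))) = p ^ (ε + (n + r)) := by
    have h := card_H1S_Fn htr s0 hπQ hpS' hπS
    rw [relIndex_pows_VS p _ (hS₁ S hS1), card_rootsOfUnity_fld p s0 hπQ, hif, ← pow_add, hn,
      hr] at h
    exact h
  have hm : Nat.card (minus (Fn π (rhoChi (cycloChar p))) cc) = p ^ (r + 1) := by
    rw [card_minus_Fn (cycloChar p) π cc (cycloChar_cc p), card_orb_cc htr s0 hπQ, hr]
  have hT : FinMod p lvlQ (rhoChi (cycloChar p)) :=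
    ⟨inferInstance, fun a => by rw [nsmul_eq_mul, ZMod.natCast_self, zero_mul], smooth_rhoT p⟩
  have hM : FinMod p lvlQ (Fn π (rhoChi (cycloChar p))) := hT.fn hπQ
  obtain ⟨hfin, h2⟩ := card_H2S hp2 hpS' hM
  have hsha : Nat.card (ShaA2 lvlQ Dq (Fn π (rhoChi (cycloChar p)))) = 1 := by
    haveI : Subsingleton (ShaA2 lvlQ Dq (Fn π (rhoChi (cycloChar p)))) :=
      ⟨fun x y => Subtype.ext ((dat.hasse π hπQ htr x.1 x.2).trans
        (dat.hasse π hπQ htr y.1 y.2).symm)⟩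
    exact Nat.card_unique
  have hd0 : Nat.card (H0 (dualRho (cycloChar p) (Fn π (rhoChi (cycloChar p))))) = p := by
    have h := card_H0_dual_Fn (cycloChar p) π (MonoidHom.id GQ)
    rw [MonoidHom.comp_id, MonoidHom.comp_id] at h
    have horb : Nat.card (Orb π) = 1 := by
      haveI : Subsingleton (Orb π) := ⟨fun o o' => by
        obtain ⟨s, rfl⟩ := orbOf_surjective _ o
        obtain ⟨s', rfl⟩ := orbOf_surjective _ o'
        exact (orbOf_eq_iff _).2 (htr.2 s s')⟩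
      haveI : Nonempty (Orb π) := ⟨orbOf π s0⟩
      exact Nat.card_unique
    rw [h, horb, pow_one]
  have hdv : ∀ v, Nat.card (H0 (rv Dq (dualRho (cycloChar p) (Fn π (rhoChi (cycloChar p)))) v)) =
      p ^ Nat.card (Orb (π.comp (Dq v).subtype)) :=
    fun v => card_H0_dual_Fn (cycloChar p) π (Dq v).subtype
  rw [hsha, one_mul, hd0, Finset.prod_congr rfl (fun v _ => hdv v), Finset.prod_pow_eq_pow_sum,
    sum_card_orb htr s0 hπQ S, hn] at h2
  have hn1 : 1 ≤ n := by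
    rcases Nat.eq_zero_or_pos n with h | h
    · rw [h, pow_zero] at h2
      exact absurd (Nat.eq_one_of_mul_eq_one_left h2) hp.one_lt.ne'
    · exact h
  have h2' : Nat.card (H2S S (Fn π (rhoChi (cycloChar p)))) = p ^ (n - 1) := by
    apply Nat.eq_of_mul_eq_mul_right hp.pos
    rw [h2, ← pow_succ, Nat.sub_add_cancel hn1]
  rw [lamS, h0, h1, hm, h2', padicValNat.prime_pow, padicValNat.prime_pow, padicValNat.prime_pow,
    padicValNat.prime_pow]
  push_cast [Nat.cast_sub hn1]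
  ring

end Fermat.Agent.S56.E
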